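import Mathlib
import Fermat.Prelude.Thm_IsLocalRing_isAdicComplete_of_module_finite

set_option autoImplicit false

/-!
# Commutative algebra of power series rings over a complete local ring (block [C] of S53)
-/

namespace Fermat.Agent.S53.H173

open MvPowerSeries IsLocalRing

section CoeffIdeal

variable {σ : Type*} {R : Type*} [CommRing R]

/-- Power series `f` with `coeff e f ∈ I ^ (n - degree e)` for all exponents `e`. -/
def coeffIdeal (σ : Type*) {R : Type*} [CommRing R] (I : Ideal R) (n : ℕ) :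
    Ideal (MvPowerSeries σ R) where
  carrier := {f | ∀ e : σ →₀ ℕ, coeff e f ∈ I ^ (n - e.degree)}
  add_mem' := fun {f g} hf hg e => by
    rw [map_add]; exact Ideal.add_mem _ (hf e) (hg e)
  zero_mem' := fun e => by rw [map_zero]; exact Ideal.zero_mem _
  smul_mem' := fun c f hf e => by
    classical
    rw [smul_eq_mul, MvPowerSeries.coeff_mul]
    refine Ideal.sum_mem _ fun p hp => ?_
    have hp' : p.1 + p.2 = e := by simpa using hp
    have hle : p.2.degree ≤ e.degree := by
      rw [← hp', map_add]; exact Nat.le_add_left _ _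
    exact Ideal.mul_mem_left _ _ (Ideal.pow_le_pow_right (by omega) (hf p.2))

theorem mem_coeffIdeal {I : Ideal R} {n : ℕ} {f : MvPowerSeries σ R} :
    f ∈ coeffIdeal σ I n ↔ ∀ e : σ →₀ ℕ, coeff e f ∈ I ^ (n - e.degree) := Iff.rfl

theorem coeffIdeal_mul_le (I : Ideal R) (a b : ℕ) :
    coeffIdeal σ I a * coeffIdeal σ I b ≤ coeffIdeal σ I (a + b) := by
  classical
  rw [Ideal.mul_le]
  intro f hf g hg e
  rw [MvPowerSeries.coeff_mul]
  refine Ideal.sum_mem _ fun p hp => ?_
  have hp' : p.1 + p.2 = e := by simpa using hp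
  have hdeg : p.1.degree + p.2.degree = e.degree := by rw [← hp', map_add]
  have h1 := hf p.1
  have h2 := hg p.2
  have h3 : coeff p.1 f * coeff p.2 g ∈ I ^ ((a - p.1.degree) + (b - p.2.degree)) := by
    rw [pow_add]; exact Ideal.mul_mem_mul h1 h2
  exact Ideal.pow_le_pow_right (by omega) h3

theorem coeffIdeal_zero (I : Ideal R) : coeffIdeal σ I 0 = ⊤ := by
  rw [Ideal.eq_top_iff_one]
  intro e
  simp

theorem pow_coeffIdeal_one_le (I : Ideal R) (n : ℕ) :
    (coeffIdeal σ I 1) ^ n ≤ coeffIdeal σ I n := by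
  induction n with
  | zero => rw [coeffIdeal_zero]; exact le_top
  | succ n ih =>
    rw [pow_succ]
    exact (Ideal.mul_mono_left ih).trans (coeffIdeal_mul_le I n 1)

end CoeffIdeal

section SpanX

variable {σ : Type*} [Finite σ] {R : Type*} [CommRing R]

omit [Finite σ] in
theorem coe_mem_span_X_pow (n : ℕ) (p : MvPolynomial σ R)
    (hp : p ∈ MvPolynomial.idealOfVars σ R ^ n) :
    (p : MvPowerSeries σ R) ∈ (Ideal.span (Set.range (X : σ → MvPowerSeries σ R))) ^ n := by
  have h1 : Ideal.map (MvPolynomial.coeToMvPowerSeries.ringHom (σ := σ) (R := R))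
      (MvPolynomial.idealOfVars σ R) = Ideal.span (Set.range (X : σ → MvPowerSeries σ R)) := by
    rw [MvPolynomial.idealOfVars, Ideal.map_span, ← Set.range_comp]
    congr 2
    funext i
    exact MvPolynomial.coe_X i
  rw [← h1, ← Ideal.map_pow]
  exact Ideal.mem_map_of_mem _ hp

/-- A power series all of whose coefficients in degree `< n` vanish lies in `(X)^n`. -/
theorem mem_span_X_pow_of_coeff_eq_zero (n : ℕ) (g : MvPowerSeries σ R)
    (hg : ∀ e : σ →₀ ℕ, e.degree < n → coeff e g = 0) :
    g ∈ (Ideal.span (Set.range (X : σ → MvPowerSeries σ R))) ^ n := by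
  have h0 : truncTotal n g = 0 := by
    ext e
    rw [coeff_truncTotal_eq_ite]
    split_ifs with h
    · rw [hg e h]; simp
    · simp
  have h1 : toAdicCompletionAlgEquiv σ R g ∈
      LinearMap.ker (AdicCompletion.eval (MvPolynomial.idealOfVars σ R) (MvPolynomial σ R) n) := by
    rw [LinearMap.mem_ker, AdicCompletion.eval_apply, toAdicCompletionAlgEquiv_apply]
    change (toAdicCompletion σ R g).val n = 0
    rw [toAdicCompletion_apply_eq_mk_truncTotal, h0]
    simp
  rw [← AdicCompletion.pow_smul_top_eq_ker_eval (MvPolynomial.idealOfVars_fg σ R)] at h1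
  have h2 : ∀ y ∈ (MvPolynomial.idealOfVars σ R ^ n • ⊤ :
      Submodule (MvPolynomial σ R)
        (AdicCompletion (MvPolynomial.idealOfVars σ R) (MvPolynomial σ R))),
      (toAdicCompletionAlgEquiv σ R).symm y ∈
        (Ideal.span (Set.range (X : σ → MvPowerSeries σ R))) ^ n := by
    intro y hy
    refine Submodule.smul_induction_on hy ?_ ?_
    · intro p hp x _
      rw [map_smul, Algebra.smul_def]
      exact Ideal.mul_mem_right _ _ (coe_mem_span_X_pow n p hp)
    · intro x y hx hy
      rw [map_add]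
      exact Ideal.add_mem _ hx hy
  have h3 := h2 _ h1
  rwa [AlgEquiv.symm_apply_apply] at h3

end SpanX

section MaxIdeal

variable {σ : Type*} {R : Type*} [CommRing R] [IsLocalRing R]

theorem mem_maximalIdeal_iff_constantCoeff (f : MvPowerSeries σ R) :
    f ∈ maximalIdeal (MvPowerSeries σ R) ↔ constantCoeff f ∈ maximalIdeal R := by
  rw [IsLocalRing.mem_maximalIdeal, IsLocalRing.mem_maximalIdeal, mem_nonunits_iff,
    mem_nonunits_iff, isUnit_iff_constantCoeff]

theorem maximalIdeal_eq_coeffIdeal :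
    maximalIdeal (MvPowerSeries σ R) = coeffIdeal σ (maximalIdeal R) 1 := by
  ext f
  rw [mem_maximalIdeal_iff_constantCoeff, mem_coeffIdeal]
  constructor
  · intro h e
    by_cases he : e = 0
    · subst he
      simpa using h
    · have h1 : e.degree ≠ 0 := fun h0 => he ((Finsupp.degree_eq_zero_iff e).mp h0)
      have h2 : 1 - e.degree = 0 := by omega
      rw [h2]
      simp
  · intro h
    simpa using h 0

theorem maximalIdeal_pow_le_coeffIdeal (n : ℕ) :
    maximalIdeal (MvPowerSeries σ R) ^ n ≤ coeffIdeal σ (maximalIdeal R) n := by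
  rw [maximalIdeal_eq_coeffIdeal]
  exact pow_coeffIdeal_one_le _ n

theorem X_mem_maximalIdeal (i : σ) :
    (X i : MvPowerSeries σ R) ∈ maximalIdeal (MvPowerSeries σ R) := by
  classical
  rw [mem_maximalIdeal_iff_constantCoeff]
  simp

theorem span_X_le_maximalIdeal :
    Ideal.span (Set.range (X : σ → MvPowerSeries σ R)) ≤ maximalIdeal (MvPowerSeries σ R) := by
  rw [Ideal.span_le]
  rintro _ ⟨i, rfl⟩
  exact X_mem_maximalIdeal i

theorem C_mem_maximalIdeal_pow {c : R} {j : ℕ} (hc : c ∈ maximalIdeal R ^ j) :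
    (C c : MvPowerSeries σ R) ∈ maximalIdeal (MvPowerSeries σ R) ^ j := by
  have h1 : Ideal.map (C : R →+* MvPowerSeries σ R) (maximalIdeal R) ≤
      maximalIdeal (MvPowerSeries σ R) := by
    rw [Ideal.map_le_iff_le_comap]
    intro x hx
    rw [Ideal.mem_comap, mem_maximalIdeal_iff_constantCoeff]
    simpa using hx
  have h2 := Ideal.mem_map_of_mem (C : R →+* MvPowerSeries σ R) hc
  rw [Ideal.map_pow] at h2
  exact Ideal.pow_right_mono h1 j h2

theorem coe_monomial_mem_maximalIdeal_pow {c : R} {j : ℕ} (e : σ →₀ ℕ)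
    (hc : c ∈ maximalIdeal R ^ j) :
    ((MvPolynomial.monomial e c : MvPolynomial σ R) : MvPowerSeries σ R) ∈
      maximalIdeal (MvPowerSeries σ R) ^ (j + e.degree) := by
  rw [MvPolynomial.coe_monomial, MvPowerSeries.monomial_eq', pow_add]
  refine Ideal.mul_mem_mul (C_mem_maximalIdeal_pow hc) ?_
  rw [Finsupp.prod, Finsupp.degree_apply, ← Finset.prod_pow_eq_pow_sum]
  refine Ideal.prod_mem_prod fun i _ => ?_
  exact Ideal.pow_mem_pow (X_mem_maximalIdeal i) _

theorem coeffIdeal_le_maximalIdeal_pow [Finite σ] (n : ℕ) :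
    coeffIdeal σ (maximalIdeal R) n ≤ maximalIdeal (MvPowerSeries σ R) ^ n := by
  intro f hf
  have h1 : f - (truncTotal n f : MvPolynomial σ R) ∈ maximalIdeal (MvPowerSeries σ R) ^ n := by
    refine Ideal.pow_right_mono span_X_le_maximalIdeal n
      (mem_span_X_pow_of_coeff_eq_zero n _ fun e he => ?_)
    rw [map_sub, MvPolynomial.coeff_coe, coeff_truncTotal _ he, sub_self]
  have h2 : ((truncTotal n f : MvPolynomial σ R) : MvPowerSeries σ R) ∈
      maximalIdeal (MvPowerSeries σ R) ^ n := by
    rw [MvPolynomial.as_sum (truncTotal n f)]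
    rw [← MvPolynomial.coeToMvPowerSeries.ringHom_apply, map_sum]
    refine Ideal.sum_mem _ fun e he => ?_
    rw [MvPolynomial.coeToMvPowerSeries.ringHom_apply]
    have hdeg : e.degree < n := by
      by_contra hcon
      rw [MvPolynomial.mem_support_iff] at he
      exact he (coeff_truncTotal_eq_zero _ (not_lt.mp hcon))
    have h3 := coe_monomial_mem_maximalIdeal_pow (σ := σ) (j := n - e.degree) e
      (c := MvPolynomial.coeff e (truncTotal n f)) (by
        rw [coeff_truncTotal _ hdeg]; exact hf e)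
    have h4 : n - e.degree + e.degree = n := by omega
    rwa [h4] at h3
  have := Ideal.add_mem _ h1 h2
  rwa [sub_add_cancel] at this

theorem maximalIdeal_pow_eq_coeffIdeal [Finite σ] (n : ℕ) :
    maximalIdeal (MvPowerSeries σ R) ^ n = coeffIdeal σ (maximalIdeal R) n :=
  le_antisymm (maximalIdeal_pow_le_coeffIdeal n) (coeffIdeal_le_maximalIdeal_pow n)

theorem mem_maximalIdeal_pow_iff [Finite σ] (n : ℕ) (f : MvPowerSeries σ R) :
    f ∈ maximalIdeal (MvPowerSeries σ R) ^ n ↔
      ∀ e : σ →₀ ℕ, coeff e f ∈ maximalIdeal R ^ (n - e.degree) := by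
  rw [maximalIdeal_pow_eq_coeffIdeal]; rfl

end MaxIdeal

section Complete

variable {σ : Type*} [Finite σ] {R : Type*} [CommRing R] [IsLocalRing R]

theorem isHausdorff_mvPowerSeries [IsHausdorff (maximalIdeal R) R] :
    IsHausdorff (maximalIdeal (MvPowerSeries σ R)) (MvPowerSeries σ R) := by
  refine ⟨fun f hf => ?_⟩
  ext e
  rw [map_zero]
  refine IsHausdorff.haus (I := maximalIdeal R) inferInstance _ fun n => ?_
  have h1 := hf (n + e.degree)
  rw [SModEq.zero, smul_eq_mul, Ideal.mul_top, mem_maximalIdeal_pow_iff] at h1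
  have h2 := h1 e
  rw [Nat.add_sub_cancel] at h2
  rw [SModEq.zero, smul_eq_mul, Ideal.mul_top]
  exact h2

omit [Finite σ] [IsLocalRing R] in
/-- Build a power series from its coefficient function. -/
def mkPS (c : (σ →₀ ℕ) → R) : MvPowerSeries σ R := c

omit [Finite σ] [IsLocalRing R] in
theorem coeff_mkPS (c : (σ →₀ ℕ) → R) (e : σ →₀ ℕ) : coeff e (mkPS c) = c e := rfl

theorem isPrecomplete_mvPowerSeries [IsPrecomplete (maximalIdeal R) R] :
    IsPrecomplete (maximalIdeal (MvPowerSeries σ R)) (MvPowerSeries σ R) := by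
  refine ⟨fun f hf => ?_⟩
  have hf' : ∀ {m n : ℕ}, m ≤ n → f m - f n ∈ maximalIdeal (MvPowerSeries σ R) ^ m := by
    intro m n hmn
    have := hf hmn
    rwa [SModEq.sub_mem, smul_eq_mul, Ideal.mul_top] at this
  have key : ∀ e : σ →₀ ℕ, ∃ c : R, ∀ k : ℕ,
      coeff e (f (k + e.degree)) - c ∈ maximalIdeal R ^ k := by
    intro e
    obtain ⟨c, hc⟩ := IsPrecomplete.prec (I := maximalIdeal R) inferInstance
      (f := fun k => coeff e (f (k + e.degree))) (by
        intro m n hmn
        rw [SModEq.sub_mem, smul_eq_mul, Ideal.mul_top]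
        have h1 := hf' (Nat.add_le_add_right hmn e.degree)
        rw [mem_maximalIdeal_pow_iff] at h1
        have h2 := h1 e
        rwa [Nat.add_sub_cancel, map_sub] at h2)
    refine ⟨c, fun k => ?_⟩
    have := hc k
    rwa [SModEq.sub_mem, smul_eq_mul, Ideal.mul_top] at this
  choose c hc using key
  refine ⟨mkPS c, fun n => ?_⟩
  rw [SModEq.sub_mem, smul_eq_mul, Ideal.mul_top, mem_maximalIdeal_pow_iff]
  intro e
  by_cases hle : e.degree ≤ n
  · have h1 := hc e (n - e.degree)
    rw [Nat.sub_add_cancel hle] at h1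
    rw [map_sub, coeff_mkPS]
    exact h1
  · have h2 : n - e.degree = 0 := by omega
    rw [h2]
    simp

/-- The power series ring in finitely many variables over a complete local ring is complete
with respect to its maximal ideal. -/
theorem isAdicComplete_mvPowerSeries [IsAdicComplete (maximalIdeal R) R] :
    IsAdicComplete (maximalIdeal (MvPowerSeries σ R)) (MvPowerSeries σ R) :=
  { toIsHausdorff := isHausdorff_mvPowerSeries
    toIsPrecomplete := isPrecomplete_mvPowerSeries }

end Complete

end Fermat.Agent.S53.H173
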