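import Mathlib
import Fermat.Agent.S53.H173.PowerSeries

set_option autoImplicit false

/-!
# Evaluation maps from power series rings to complete local rings (block [C] of S53)
-/

namespace Fermat.Agent.S53.H173

open MvPowerSeries IsLocalRing

section Eval

variable {σ : Type*} {R : Type*} [CommRing R]
variable {A : Type*} [CommRing A] [Algebra R A] [IsLocalRing A]

theorem aeval_mem_pow_of_mem_idealOfVars_pow (a : σ → A) (ha : ∀ i, a i ∈ maximalIdeal A)
    (n : ℕ) (p : MvPolynomial σ R) (hp : p ∈ MvPolynomial.idealOfVars σ R ^ n) :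
    MvPolynomial.aeval a p ∈ maximalIdeal A ^ n := by
  have h1 : Ideal.map (MvPolynomial.aeval a : MvPolynomial σ R →ₐ[R] A)
      (MvPolynomial.idealOfVars σ R) ≤ maximalIdeal A := by
    rw [MvPolynomial.idealOfVars, Ideal.map_span, Ideal.span_le]
    rintro _ ⟨_, ⟨i, rfl⟩, rfl⟩
    simpa using ha i
  have h2 := Ideal.mem_map_of_mem (MvPolynomial.aeval a : MvPolynomial σ R →ₐ[R] A) hp
  rw [Ideal.map_pow] at h2
  exact Ideal.pow_right_mono h1 n h2

variable [Finite σ]

/-- Level-`n` evaluation `R⟦X⟧ → A ⧸ m_A ^ n` at a point `a` with coordinates in `m_A`. -/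
noncomputable def evalLevel (a : σ → A) (ha : ∀ i, a i ∈ maximalIdeal A) (n : ℕ) :
    MvPowerSeries σ R →ₐ[R] A ⧸ (maximalIdeal A) ^ n :=
  (Ideal.Quotient.liftₐ (MvPolynomial.idealOfVars σ R ^ n)
      ((Ideal.Quotient.mkₐ R (maximalIdeal A ^ n)).comp (MvPolynomial.aeval a))
      (fun p hp => by
        rw [AlgHom.comp_apply, Ideal.Quotient.mkₐ_eq_mk, Ideal.Quotient.eq_zero_iff_mem]
        exact aeval_mem_pow_of_mem_idealOfVars_pow a ha n p hp)).comp
    ((truncTotalAlgHom σ R n).restrictScalars R)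

theorem evalLevel_apply (a : σ → A) (ha : ∀ i, a i ∈ maximalIdeal A) (n : ℕ)
    (f : MvPowerSeries σ R) :
    evalLevel a ha n f =
      Ideal.Quotient.mk (maximalIdeal A ^ n) (MvPolynomial.aeval a (truncTotal n f)) := by
  rfl

theorem evalLevel_compat (a : σ → A) (ha : ∀ i, a i ∈ maximalIdeal A) {m n : ℕ} (hle : m ≤ n) :
    (Ideal.Quotient.factorₐ R (Ideal.pow_le_pow_right (I := maximalIdeal A) hle)).comp
      (evalLevel a ha n) = evalLevel (R := R) a ha m := by
  ext f
  rw [AlgHom.comp_apply, evalLevel_apply, evalLevel_apply, Ideal.Quotient.factorₐ_apply_mk,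
    Ideal.Quotient.eq, ← map_sub]
  exact aeval_mem_pow_of_mem_idealOfVars_pow a ha m _
    (truncTotal_sub_truncTotal_mem_pow_idealOfVars hle le_rfl f)

variable [IsAdicComplete (maximalIdeal A) A]

/-- The `R`-algebra map `R⟦X₁,…,X_d⟧ → A`, `X i ↦ a i`, for `a i ∈ m_A` and `A` complete local. -/
noncomputable def evalLocal (a : σ → A) (ha : ∀ i, a i ∈ maximalIdeal A) :
    MvPowerSeries σ R →ₐ[R] A :=
  IsAdicComplete.liftAlgHom (maximalIdeal A) (evalLevel a ha)
    (fun hle => evalLevel_compat a ha hle)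

theorem mk_evalLocal (a : σ → A) (ha : ∀ i, a i ∈ maximalIdeal A) (n : ℕ)
    (f : MvPowerSeries σ R) :
    Ideal.Quotient.mk (maximalIdeal A ^ n) (evalLocal a ha f) =
      Ideal.Quotient.mk (maximalIdeal A ^ n) (MvPolynomial.aeval a (truncTotal n f)) := by
  rw [evalLocal, IsAdicComplete.mk_liftAlgHom, evalLevel_apply]

theorem evalLocal_sub_mem (a : σ → A) (ha : ∀ i, a i ∈ maximalIdeal A) (n : ℕ)
    (f : MvPowerSeries σ R) :
    evalLocal a ha f - MvPolynomial.aeval a (truncTotal n f) ∈ maximalIdeal A ^ n := by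
  rw [← Ideal.Quotient.eq]
  exact mk_evalLocal a ha n f

theorem eq_of_forall_sub_mem_pow {x y : A} (h : ∀ n, x - y ∈ maximalIdeal A ^ n) : x = y := by
  rw [← sub_eq_zero]
  refine IsHausdorff.haus (I := maximalIdeal A) inferInstance _ fun n => ?_
  rw [SModEq.zero, smul_eq_mul, Ideal.mul_top]
  exact h n

theorem evalLocal_coe (a : σ → A) (ha : ∀ i, a i ∈ maximalIdeal A) (p : MvPolynomial σ R) :
    evalLocal a ha (p : MvPowerSeries σ R) = MvPolynomial.aeval a p := by
  refine eq_of_forall_sub_mem_pow fun n => ?_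
  have h1 := evalLocal_sub_mem a ha n (p : MvPowerSeries σ R)
  have h2 : MvPolynomial.aeval a (truncTotal n (p : MvPowerSeries σ R)) -
      MvPolynomial.aeval a p ∈ maximalIdeal A ^ n := by
    rw [← map_sub]
    refine aeval_mem_pow_of_mem_idealOfVars_pow a ha n _ ?_
    rw [MvPolynomial.mem_pow_idealOfVars_iff']
    intro e he
    rw [MvPolynomial.coeff_sub, coeff_truncTotal _ he, MvPolynomial.coeff_coe, sub_self]
  have := Ideal.add_mem _ h1 h2
  rwa [sub_add_sub_cancel] at this

@[simp]
theorem evalLocal_X (a : σ → A) (ha : ∀ i, a i ∈ maximalIdeal A) (i : σ) :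
    evalLocal (R := R) a ha (X i) = a i := by
  rw [← MvPolynomial.coe_X, evalLocal_coe, MvPolynomial.aeval_X]

omit [Finite σ] [IsAdicComplete (maximalIdeal A) A] in
theorem map_mem_pow_of_mem_span_X_pow (φ : MvPowerSeries σ R →ₐ[R] A)
    (hφ : ∀ i, φ (X i) ∈ maximalIdeal A) (n : ℕ) (g : MvPowerSeries σ R)
    (hg : g ∈ (Ideal.span (Set.range (X : σ → MvPowerSeries σ R))) ^ n) :
    φ g ∈ maximalIdeal A ^ n := by
  have h1 : Ideal.map φ (Ideal.span (Set.range (X : σ → MvPowerSeries σ R))) ≤
      maximalIdeal A := by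
    rw [Ideal.map_span, Ideal.span_le]
    rintro _ ⟨_, ⟨i, rfl⟩, rfl⟩
    exact hφ i
  have h2 := Ideal.mem_map_of_mem φ hg
  rw [Ideal.map_pow] at h2
  exact Ideal.pow_right_mono h1 n h2

omit [IsAdicComplete (maximalIdeal A) A] in
/-- Two `R`-algebra maps out of the power series ring which agree on the variables, and send
them into the maximal ideal of the (separated) local target, are equal. -/
theorem algHom_ext_of_X [IsHausdorff (maximalIdeal A) A]
    (φ ψ : MvPowerSeries σ R →ₐ[R] A)
    (hφ : ∀ i, φ (X i) ∈ maximalIdeal A) (h : ∀ i, φ (X i) = ψ (X i)) : φ = ψ := by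
  have hψ : ∀ i, ψ (X i) ∈ maximalIdeal A := fun i => h i ▸ hφ i
  have hpoly : ∀ p : MvPolynomial σ R, φ (p : MvPowerSeries σ R) = ψ (p : MvPowerSeries σ R) := by
    intro p
    have : (φ.comp (MvPolynomial.coeToMvPowerSeries.algHom (σ := σ) (R := R) R)) =
        (ψ.comp (MvPolynomial.coeToMvPowerSeries.algHom (σ := σ) (R := R) R)) := by
      apply MvPolynomial.algHom_ext
      intro i
      simpa using h i
    simpa using DFunLike.congr_fun this p
  ext f
  rw [← sub_eq_zero]
  refine IsHausdorff.haus (I := maximalIdeal A) inferInstance _ fun n => ?_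
  rw [SModEq.zero, smul_eq_mul, Ideal.mul_top]
  have hg : f - (truncTotal n f : MvPolynomial σ R) ∈
      (Ideal.span (Set.range (X : σ → MvPowerSeries σ R))) ^ n := by
    refine mem_span_X_pow_of_coeff_eq_zero n _ fun e he => ?_
    rw [map_sub, MvPolynomial.coeff_coe, coeff_truncTotal _ he, sub_self]
  have h1 := map_mem_pow_of_mem_span_X_pow φ hφ n _ hg
  have h2 := map_mem_pow_of_mem_span_X_pow ψ hψ n _ hg
  rw [map_sub] at h1 h2
  have := Ideal.sub_mem _ h1 h2
  rwa [hpoly, sub_sub_sub_cancel_right] at this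

theorem eq_evalLocal (a : σ → A) (ha : ∀ i, a i ∈ maximalIdeal A)
    (φ : MvPowerSeries σ R →ₐ[R] A) (h : ∀ i, φ (X i) = a i) : φ = evalLocal a ha :=
  algHom_ext_of_X φ _ (fun i => h i ▸ ha i) (fun i => by rw [h i, evalLocal_X])

end Eval

section Local

variable {σ : Type*} [Finite σ] {R : Type*} [CommRing R] [IsLocalRing R]
variable {A : Type*} [CommRing A] [Algebra R A] [IsLocalRing A]

/-- An `R`-algebra map from the power series ring sending the variables into `m_A` maps
`m_S` into `m_A`, provided `R → A` is local. -/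
theorem map_mem_maximalIdeal [IsLocalHom (algebraMap R A)]
    (φ : MvPowerSeries σ R →ₐ[R] A) (hφ : ∀ i, φ (X i) ∈ maximalIdeal A)
    (f : MvPowerSeries σ R) (hf : f ∈ maximalIdeal (MvPowerSeries σ R)) :
    φ f ∈ maximalIdeal A := by
  have hg : f - (truncTotal 1 f : MvPolynomial σ R) ∈
      (Ideal.span (Set.range (X : σ → MvPowerSeries σ R))) ^ 1 := by
    refine mem_span_X_pow_of_coeff_eq_zero 1 _ fun e he => ?_
    rw [map_sub, MvPolynomial.coeff_coe, coeff_truncTotal _ he, sub_self]
  have h1 := map_mem_pow_of_mem_span_X_pow φ hφ 1 _ hg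
  rw [pow_one, map_sub] at h1
  have h2 : (truncTotal 1 f : MvPolynomial σ R) = MvPolynomial.C (constantCoeff f) := by
    classical
    ext e
    rw [coeff_truncTotal_eq_ite, MvPolynomial.coeff_C]
    by_cases he : e = 0
    · subst he
      simp
    · have h1 : e.degree ≠ 0 := fun h0 => he ((Finsupp.degree_eq_zero_iff e).mp h0)
      rw [if_neg (by omega), if_neg (Ne.symm he)]
  have h3 : φ ((truncTotal 1 f : MvPolynomial σ R) : MvPowerSeries σ R) ∈ maximalIdeal A := by
    rw [h2, MvPolynomial.coe_C]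
    have : (C (constantCoeff f) : MvPowerSeries σ R) =
        algebraMap R (MvPowerSeries σ R) (constantCoeff f) := rfl
    rw [this, AlgHom.commutes]
    rw [mem_maximalIdeal_iff_constantCoeff] at hf
    exact (IsLocalRing.mem_maximalIdeal _).mpr
      (fun hu => (IsLocalRing.mem_maximalIdeal _).mp hf (isUnit_of_map_unit _ _ hu))
  have := Ideal.add_mem _ h1 h3
  rwa [sub_add_cancel] at this

theorem isLocalHom_of_X_mem [IsLocalHom (algebraMap R A)]
    (φ : MvPowerSeries σ R →ₐ[R] A) (hφ : ∀ i, φ (X i) ∈ maximalIdeal A) :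
    IsLocalHom (φ : MvPowerSeries σ R →+* A) := by
  refine ⟨fun f hf => ?_⟩
  by_contra hcon
  have h1 : f ∈ maximalIdeal (MvPowerSeries σ R) := (IsLocalRing.mem_maximalIdeal _).mpr hcon
  exact (IsLocalRing.mem_maximalIdeal _).mp (map_mem_maximalIdeal φ hφ f h1) hf

theorem isLocalHom_evalLocal [IsLocalHom (algebraMap R A)] [IsAdicComplete (maximalIdeal A) A]
    (a : σ → A) (ha : ∀ i, a i ∈ maximalIdeal A) :
    IsLocalHom (evalLocal (R := R) a ha : MvPowerSeries σ R →+* A) :=
  isLocalHom_of_X_mem _ fun i => by rw [evalLocal_X]; exact ha i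

omit [Finite σ] in
/-- Any local `R`-algebra hom out of the power series ring sends the variables to `m_A`. -/
theorem X_mem_of_isLocalHom (φ : MvPowerSeries σ R →ₐ[R] A)
    (hφ : IsLocalHom (φ : MvPowerSeries σ R →+* A)) (i : σ) : φ (X i) ∈ maximalIdeal A := by
  rw [IsLocalRing.mem_maximalIdeal, mem_nonunits_iff]
  intro hu
  have := hφ.map_nonunit (X i) hu
  exact (IsLocalRing.mem_maximalIdeal _).mp (X_mem_maximalIdeal (R := R) i) this

theorem map_maximalIdeal_eq [IsLocalHom (algebraMap R A)]
    (φ : MvPowerSeries σ R →ₐ[R] A) (hφ : ∀ i, φ (X i) ∈ maximalIdeal A)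
    (hgen : maximalIdeal A ≤ Ideal.map (algebraMap R A) (maximalIdeal R) ⊔
      Ideal.span (Set.range fun i => φ (X i))) :
    Ideal.map φ (maximalIdeal (MvPowerSeries σ R)) = maximalIdeal A := by
  apply le_antisymm
  · rw [Ideal.map_le_iff_le_comap]
    intro f hf
    exact map_mem_maximalIdeal φ hφ f hf
  · refine hgen.trans (sup_le ?_ ?_)
    · rw [Ideal.map_le_iff_le_comap]
      intro c hc
      rw [Ideal.mem_comap, ← φ.commutes]
      refine Ideal.mem_map_of_mem φ ?_
      rw [mem_maximalIdeal_iff_constantCoeff]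
      simpa [MvPowerSeries.algebraMap_apply] using hc
    · rw [Ideal.span_le]
      rintro _ ⟨i, rfl⟩
      exact Ideal.mem_map_of_mem φ (X_mem_maximalIdeal i)

/-- Surjectivity criterion: if `R → A` is surjective on residue fields and `m_A` is generated by
the image of `m_R` and the `φ (X i)`, then `φ : R⟦X⟧ → A` is surjective (`R`, `A` complete). -/
theorem surjective_of_maximalIdeal_le [IsAdicComplete (maximalIdeal R) R]
    [IsLocalHom (algebraMap R A)] [IsHausdorff (maximalIdeal A) A]
    (φ : MvPowerSeries σ R →ₐ[R] A) (hφ : ∀ i, φ (X i) ∈ maximalIdeal A)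
    (hres : Function.Surjective (IsLocalRing.residue A ∘ algebraMap R A))
    (hgen : maximalIdeal A ≤ Ideal.map (algebraMap R A) (maximalIdeal R) ⊔
      Ideal.span (Set.range fun i => φ (X i))) :
    Function.Surjective φ := by
  have hmap := map_maximalIdeal_eq φ hφ hgen
  haveI : IsPrecomplete (maximalIdeal (MvPowerSeries σ R)) (MvPowerSeries σ R) :=
    isPrecomplete_mvPowerSeries
  haveI haus : IsHausdorff (Ideal.map (φ : MvPowerSeries σ R →+* A)
      (maximalIdeal (MvPowerSeries σ R))) A := by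
    have : Ideal.map (φ : MvPowerSeries σ R →+* A) (maximalIdeal (MvPowerSeries σ R)) =
        maximalIdeal A := hmap
    rw [this]
    infer_instance
  have key := surjective_of_mk_map_comp_surjective (I := maximalIdeal (MvPowerSeries σ R))
    (f := (φ : MvPowerSeries σ R →+* A)) ?_
  · exact key
  · intro y
    obtain ⟨y', rfl⟩ := Ideal.Quotient.mk_surjective y
    obtain ⟨c, hc⟩ := hres (IsLocalRing.residue A y')
    refine ⟨C c, ?_⟩
    rw [RingHom.comp_apply, Ideal.Quotient.eq]
    have h1 : (φ : MvPowerSeries σ R →+* A) (C c) = algebraMap R A c := by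
      have : (C c : MvPowerSeries σ R) = algebraMap R (MvPowerSeries σ R) c := rfl
      rw [this]
      exact φ.commutes c
    rw [h1]
    have h2 : algebraMap R A c - y' ∈ maximalIdeal A := by
      rw [← Ideal.Quotient.eq]
      exact hc
    have : Ideal.map (φ : MvPowerSeries σ R →+* A) (maximalIdeal (MvPowerSeries σ R)) =
        maximalIdeal A := hmap
    rw [this]
    exact h2

theorem evalLocal_surjective [IsAdicComplete (maximalIdeal R) R]
    [IsLocalHom (algebraMap R A)] [IsAdicComplete (maximalIdeal A) A]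
    (a : σ → A) (ha : ∀ i, a i ∈ maximalIdeal A)
    (hres : Function.Surjective (IsLocalRing.residue A ∘ algebraMap R A))
    (hgen : maximalIdeal A ≤ Ideal.map (algebraMap R A) (maximalIdeal R) ⊔
      Ideal.span (Set.range a)) :
    Function.Surjective (evalLocal (R := R) a ha) := by
  refine surjective_of_maximalIdeal_le _ (fun i => by rw [evalLocal_X]; exact ha i) hres ?_
  simpa using hgen

/-- Noetherian variant: it suffices that the `a i` and `m_R` generate `m_A` modulo `m_A ^ 2`. -/
theorem evalLocal_surjective' [IsAdicComplete (maximalIdeal R) R]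
    [IsLocalHom (algebraMap R A)] [IsAdicComplete (maximalIdeal A) A] [IsNoetherianRing A]
    (a : σ → A) (ha : ∀ i, a i ∈ maximalIdeal A)
    (hres : Function.Surjective (IsLocalRing.residue A ∘ algebraMap R A))
    (hgen : maximalIdeal A ≤ Ideal.map (algebraMap R A) (maximalIdeal R) ⊔
      Ideal.span (Set.range a) ⊔ maximalIdeal A ^ 2) :
    Function.Surjective (evalLocal (R := R) a ha) := by
  refine evalLocal_surjective a ha hres ?_
  have hN : Ideal.map (algebraMap R A) (maximalIdeal R) ⊔ Ideal.span (Set.range a) ≤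
      maximalIdeal A := by
    refine sup_le ?_ ?_
    · rw [Ideal.map_le_iff_le_comap]
      intro c hc
      exact (IsLocalRing.mem_maximalIdeal _).mpr
        (fun hu => (IsLocalRing.mem_maximalIdeal _).mp hc (isUnit_of_map_unit _ _ hu))
    · rw [Ideal.span_le]
      rintro _ ⟨i, rfl⟩
      exact ha i
  refine Submodule.le_of_le_smul_of_le_jacobson_bot (I := maximalIdeal A)
    (IsNoetherian.noetherian _) (IsLocalRing.maximalIdeal_le_jacobson _) ?_
  rw [smul_eq_mul, ← pow_two]
  exact hgen

end Local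

end Fermat.Agent.S53.H173
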